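import Mathlib
import Fermat.Agent.S41.Spec.New
import Fermat.Agent.S41.H761.CosetSystem
import Fermat.Agent.S41.H761.HKTransfer
import Fermat.Agent.S41.H581.TransferBasic

/-!
# Row S41, block NEW, leaf NEW-3a (helper924): the involution commutes with the transfers

Generic statement: the transfer of a coset system is natural under automorphisms.
If `c` is an automorphism of the ambient group `𝒢`, `β` of `Γ`, `α` of `Γ'`, compatible with
`ι, ι'`, if `c` maps every coset `ι(Γ) ρ_i` of the system to a coset of the system and the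
action on the index set is transitive, then
`transfer (ψ ∘ β) = (transfer ψ) ∘ α`.

* `IsCosetSystem.transfer_comp_aut` : the generic statement;
* `transferAlong_comp_aut` : the case of `Spec.transferAlong f`, with `α ∘ f = f ∘ β`
  (no hypothesis on `f`);
* `newInvolution : Spec.NewInvolutionStatement`.
-/

set_option autoImplicit false

namespace Fermat.Agent.S41.H924

open Fermat.Agent.S41.H761 Fermat.Agent.S41.Spec

section Generic

variable {𝒢 Γ Γ' : Type*} [Group 𝒢] [Group Γ] [Group Γ'] {I : Type*}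
variable {ι : Γ →* 𝒢} {ι' : Γ' →* 𝒢} {ρ : I → 𝒢}

/-- The image of a coset system under compatible automorphisms is a coset system. -/
theorem cosetSystem_map (h : IsCosetSystem ι ι' ρ) (c : 𝒢 ≃* 𝒢) (β : Γ ≃* Γ) (α : Γ' ≃* Γ')
    (hβ : ∀ g, c (ι g) = ι (β g)) (hα : ∀ g', c (ι' g') = ι' (α g')) :
    IsCosetSystem ι ι' (fun i => c (ρ i)) where
  inj := h.inj
  exists_mul := by
    intro i g'
    refine ⟨h.act i (α.symm g'), β (h.coc i (α.symm g')), ?_⟩
    have e := congrArg c (h.spec i (α.symm g'))
    rw [map_mul, map_mul, hα, hβ, α.apply_symm_apply] at e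
    exact e
  eq_of_mul := by
    intro i j g e
    apply h.eq_of_mul i j (β.symm g)
    apply c.injective
    rw [map_mul, hβ, β.apply_symm_apply]
    exact e

theorem cosetSystem_map_coc (h : IsCosetSystem ι ι' ρ) (c : 𝒢 ≃* 𝒢) (β : Γ ≃* Γ)
    (α : Γ' ≃* Γ') (hβ : ∀ g, c (ι g) = ι (β g)) (hα : ∀ g', c (ι' g') = ι' (α g'))
    (i : I) (g' : Γ') :
    (cosetSystem_map h c β α hβ hα).coc i (α g') = β (h.coc i g') := by
  apply (cosetSystem_map h c β α hβ hα).coc_eq (j := h.act i g')
  have e := congrArg c (h.spec i g')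
  rw [map_mul, map_mul, hα, hβ] at e
  exact e

variable {A : Type*} [AddCommGroup A] [Fintype I]

/-- **Naturality of the transfer of a coset system under automorphisms.** -/
theorem transfer_comp_aut [Nonempty I] (h : IsCosetSystem ι ι' ρ) (c : 𝒢 ≃* 𝒢) (β : Γ ≃* Γ)
    (α : Γ' ≃* Γ') (hβ : ∀ g, c (ι g) = ι (β g)) (hα : ∀ g', c (ι' g') = ι' (α g'))
    (hle : ∀ i, ∃ (j : I) (g : Γ), c (ρ i) = ι g * ρ j)
    (htr : ∀ j j' : I, ∃ g' : Γ', h.act j g' = j') (ψ : Additive Γ →+ A) :
    h.transfer (ψ.comp (MonoidHom.toAdditive β.toMonoidHom)) =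
      (h.transfer ψ).comp (MonoidHom.toAdditive α.toMonoidHom) := by
  have hcmp : (cosetSystem_map h c β α hβ hα).transfer ψ = h.transfer ψ :=
    IsCosetSystem.transfer_eq_of_le (cosetSystem_map h c β α hβ hα) h hle htr ψ
  refine AddMonoidHom.ext fun g' => ?_
  obtain ⟨g, rfl⟩ : ∃ g : Γ', Additive.ofMul g = g' := ⟨Additive.toMul g', rfl⟩
  rw [AddMonoidHom.comp_apply, ← hcmp]
  show h.transfer (ψ.comp (MonoidHom.toAdditive β.toMonoidHom)) (Additive.ofMul g) =
    (cosetSystem_map h c β α hβ hα).transfer ψ (Additive.ofMul (α g))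
  rw [IsCosetSystem.transfer_apply, IsCosetSystem.transfer_apply]
  refine Finset.sum_congr rfl fun i _ => ?_
  rw [cosetSystem_map_coc h c β α hβ hα]
  rfl

end Generic

section TransferAlong

variable {H' G : Type*} [Group H'] [Group G] {A : Type*} [AddCommGroup A]

/-- **Naturality of `transferAlong` under automorphisms**: if `α ∘ f = f ∘ β`, then
`transferAlong f (ψ ∘ β) = (transferAlong f ψ) ∘ α`. -/
theorem transferAlong_comp_aut (f : H' →* G) (β : H' ≃* H') (α : G ≃* G)
    (hαβ : ∀ x, α (f x) = f (β x)) (ψ : Additive H' →+ A) :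
    transferAlong f (ψ.comp (MonoidHom.toAdditive β.toMonoidHom)) =
      (transferAlong f ψ).comp (MonoidHom.toAdditive α.toMonoidHom) := by
  classical
  by_cases hf : Function.Injective f ∧ f.range.FiniteIndex
  · obtain ⟨hinj, hfin⟩ := hf
    have := hfin
    let _ : Fintype (G ⧸ f.range) := f.range.fintypeQuotientOfFiniteIndex
    rw [transferAlong_eq f hinj (MonoidHom.id G) Function.injective_id,
      transferAlong_eq f hinj (MonoidHom.id G) Function.injective_id]
    refine transfer_comp_aut (IsCosetSystem.ofTransfer f hinj (MonoidHom.id G)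
      Function.injective_id) α β α (fun g => by simpa using hαβ g) (fun g' => rfl) ?_ ?_ ψ
    · -- every element of `G` lies in a coset `f(H') (q.out)⁻¹`
      intro q
      set x : G := α ((MonoidHom.id G) (q.out)⁻¹) with hx
      have hmem : ((((x⁻¹ : G) : G ⧸ f.range).out)⁻¹ * x⁻¹) ∈ f.range := by
        rw [← QuotientGroup.eq, QuotientGroup.out_eq']
      obtain ⟨k, hk⟩ := hmem
      refine ⟨((x⁻¹ : G) : G ⧸ f.range), k⁻¹, ?_⟩
      simp only [MonoidHom.comp_apply, MonoidHom.id_apply, map_inv, hk]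
      rw [mul_inv_rev, inv_inv, inv_inv, mul_inv_cancel_right]
    · -- transitivity
      intro q q'
      refine ⟨q.out * (q'.out)⁻¹, ?_⟩
      rw [(IsCosetSystem.ofTransfer_act f hinj (MonoidHom.id G) Function.injective_id q _).1]
      calc (q.out * (q'.out)⁻¹)⁻¹ • q
          = (q.out * (q'.out)⁻¹)⁻¹ • ((q.out : G) : G ⧸ f.range) := by
            rw [QuotientGroup.out_eq']
        _ = (((q'.out * (q.out)⁻¹ * q.out : G)) : G ⧸ f.range) := by
            rw [mul_inv_rev, inv_inv]; rfl
        _ = q' := by rw [inv_mul_cancel_right, QuotientGroup.out_eq']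
  · rw [H581.transferAlong_of_not f hf, H581.transferAlong_of_not f hf]
    rfl

end TransferAlong

end Fermat.Agent.S41.H924
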