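import Mathlib
import Fermat.Agent.S41.Spec.New
import Fermat.Agent.S41.H924.CosetAut

/-!
# Row S41, block NEW, leaf NEW-3a (helper924)

`newInvolution : Spec.NewInvolutionStatement` — the involution `ι = charInvolution`
(conjugation by `diag(1, -1)`) commutes with the two transfers `t₁, t₂ : X_{N q} → X_N`.
(The hypotheses `N ≠ 0`, `q` prime, `q ∤ N` of the statement are not needed.)
-/

set_option autoImplicit false

namespace Fermat.Agent.S41.H924

open CongruenceSubgroup ModularCurve ModularCurve.Period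
open Fermat.Agent.S41.Spec
open scoped MatrixGroups

/-- `jConjGamma0` as a multiplicative equivalence. -/
def jConjEquiv (N : ℕ) : Gamma0 N ≃* Gamma0 N where
  toFun := jConjGamma0 N
  invFun := jConjGamma0 N
  left_inv := jConjGamma0_jConjGamma0 N
  right_inv := jConjGamma0_jConjGamma0 N
  map_mul' := map_mul (jConjGamma0 N)

theorem jConjEquiv_apply (N : ℕ) (γ : Gamma0 N) : jConjEquiv N γ = jConjGamma0 N γ := rfl

theorem charInvolution_eq_comp (N : ℕ) {A : Type*} [AddCommGroup A] [Module ℂ A]
    (ψ : Additive (Gamma0 N) →+ A) :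
    charInvolution N ℂ A ψ = ψ.comp (MonoidHom.toAdditive (jConjEquiv N).toMonoidHom) := rfl

theorem jConj_incl (N q : ℕ) (γ : Gamma0 (N * q)) :
    jConjEquiv N (incl N q γ) = incl N q (jConjEquiv (N * q) γ) := rfl

theorem jConj_conjDelta (N q : ℕ) (γ : Gamma0 (N * q)) :
    jConjEquiv N (conjDelta N q γ) = conjDelta N q (jConjEquiv (N * q) γ) := by
  apply Subtype.ext
  apply Subtype.ext
  show jConjMat (conjDeltaMatrix q (γ : SL(2, ℤ))) =
    conjDeltaMatrix q (jConjSL (γ : SL(2, ℤ)))
  have hdvd : (q : ℤ) ∣ (γ : SL(2, ℤ)) 1 0 := (dvd_of_mem_gamma0_mul γ).1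
  ext i j
  fin_cases i <;> fin_cases j <;>
    simp [jConjMat, conjDeltaMatrix, Int.neg_ediv_of_dvd hdvd]

/-- **NEW-3a.** -/
theorem newInvolution : NewInvolutionStatement := by
  intro N q _ _ _ ψ
  refine ⟨?_, ?_⟩
  · rw [charInvolution_eq_comp, charInvolution_eq_comp]
    exact transferAlong_comp_aut (incl N q) (jConjEquiv (N * q)) (jConjEquiv N)
      (jConj_incl N q) ψ
  · rw [charInvolution_eq_comp, charInvolution_eq_comp]
    exact transferAlong_comp_aut (conjDelta N q) (jConjEquiv (N * q)) (jConjEquiv N)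
      (jConj_conjDelta N q) ψ

end Fermat.Agent.S41.H924
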